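/-
S53 (universal deformation ring): the family `U` of ideals of the polynomial ring
`P = 𝒪[X_{σ,a,b}]`, closure of `U` under finite intersections (fibre products / Goursat) and
"the subalgebra generated by the entries" (`ker (evalHom ρ) ∈ U`).  (helper9)
-/
import Mathlib
import Fermat.Agent.Lib.S53.Defs

set_option autoImplicit false
set_option linter.unusedSectionVars false
set_option linter.style.haveILetI false

open scoped TensorProduct

namespace Fermat.Agent.Lib.S53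

open IsLocalRing GaloisRep

/-! ### The bridge between `baseChangeAlong` and `MatRep.map` -/

section Bridge

variable {A B : Type} [CommRing A] [IsLocalRing A] [CommRing B] [IsLocalRing B]

theorem h9_piScalarRight_baseChange (φ : A →+* B) (hφ : IsLocalHom φ) (ρ : MatRep A) (σ : GQ) :
    letI : Algebra A B := φ.toAlgebra
    ∀ x : B ⊗[A] (Fin 2 → A),
      TensorProduct.piScalarRight A B B (Fin 2) ((ρ.toEndHom σ).baseChange B x) =
        ((ρ.map φ hφ).r σ).mulVec (TensorProduct.piScalarRight A B B (Fin 2) x) := by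
  let _ : Algebra A B := φ.toAlgebra
  intro x
  induction x using TensorProduct.induction_on with
  | zero => simp only [map_zero, Matrix.mulVec_zero]
  | tmul b v =>
    rw [LinearMap.baseChange_tmul, TensorProduct.piScalarRight_apply,
      TensorProduct.piScalarRightHom_tmul, TensorProduct.piScalarRight_apply,
      TensorProduct.piScalarRightHom_tmul, MatRep.toEndHom_apply]
    funext i
    simp only [Matrix.mulVec, dotProduct, MatRep.map_r_apply, Fin.sum_univ_two,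
      Algebra.smul_def, RingHom.algebraMap_toAlgebra, map_add, map_mul]
    ring
  | add x y hx hy => simp only [map_add, hx, hy, Matrix.mulVec_add]

/-- Base change of the `GaloisRepAdic` attached to a matrix representation is (equivalent to)
the `GaloisRepAdic` attached to the pushed-forward matrix representation. -/
noncomputable def h9MapEquiv (φ : A →+* B) (hφ : IsLocalHom φ) (ρ : MatRep A) :
    GaloisRepAdic.Equiv ((ρ.toGaloisRepAdic).baseChangeAlong φ hφ)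
      ((ρ.map φ hφ).toGaloisRepAdic) :=
  letI : Algebra A B := φ.toAlgebra
  { toLinearEquiv := TensorProduct.piScalarRight A B B (Fin 2)
    map_apply := fun σ x => h9_piScalarRight_baseChange φ hφ ρ σ x }

theorem h9_isEquiv_map (φ : A →+* B) (hφ : IsLocalHom φ) (ρ : MatRep A) :
    ((ρ.toGaloisRepAdic).baseChangeAlong φ hφ).IsEquiv ((ρ.map φ hφ).toGaloisRepAdic) :=
  ⟨h9MapEquiv φ hφ ρ⟩

end Bridge

/-! ### Artinian test algebras -/

section Artinian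

variable {𝒪 : Type} [CommRing 𝒪] [IsLocalRing 𝒪]
variable {A : Type} [CommRing A] [IsLocalRing A] [Algebra 𝒪 A]

/-- In an Artinian local ring the maximal ideal is nilpotent. -/
theorem h9_exists_maximalIdeal_pow_eq_bot [IsArtinianRing A] :
    ∃ n : ℕ, maximalIdeal A ^ n = ⊥ := by
  have h := IsArtinianRing.isNilpotent_jacobson_bot (R := A)
  rw [IsLocalRing.jacobson_eq_maximalIdeal (⊥ : Ideal A) bot_ne_top] at h
  obtain ⟨n, hn⟩ := h
  exact ⟨n, hn⟩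

theorem h9_finite_residueField [IsLocalHom (algebraMap 𝒪 A)] [Finite (ResidueField 𝒪)]
    (hs : Function.Surjective (IsLocalRing.residue A ∘ algebraMap 𝒪 A)) :
    Finite (ResidueField A) := by
  refine Finite.of_surjective (ResidueField.map (algebraMap 𝒪 A)) fun y => ?_
  obtain ⟨c, hc⟩ := hs y
  exact ⟨IsLocalRing.residue 𝒪 c, by rw [ResidueField.map_residue]; exact hc⟩

/-- An Artinian test algebra over `𝒪` (with finite residue field) is a finite set. -/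
theorem h9_finite_of_isArtinianTestAlgebra [Finite (ResidueField 𝒪)]
    (hA : IsArtinianTestAlgebra 𝒪 A) : Finite A := by
  haveI := hA.isLocalHom
  haveI := hA.isArtinian
  haveI : Finite (ResidueField A) := h9_finite_residueField hA.residue_surjective
  obtain ⟨n, hn⟩ := h9_exists_maximalIdeal_pow_eq_bot (A := A)
  have h : Finite (A ⧸ (⊥ : Ideal A)) :=
    IsLocalRing.finite_quotient_iff.mpr ⟨n, hn.le⟩
  exact Finite.of_equiv _ (RingEquiv.quotientBot A).toEquiv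

/-- Elements of the maximal ideal of an Artinian local ring are uniformly nilpotent. -/
theorem h9_exists_pow_eq_zero [IsArtinianRing A] :
    ∃ n : ℕ, ∀ x ∈ maximalIdeal A, x ^ n = 0 := by
  obtain ⟨n, hn⟩ := h9_exists_maximalIdeal_pow_eq_bot (A := A)
  refine ⟨n, fun x hx => ?_⟩
  have := Ideal.pow_mem_pow hx n
  rwa [hn, Ideal.mem_bot] at this

end Artinian

/-! ### The polynomial ring on the matrix entries -/

section Poly

variable {𝒪 : Type} [CommRing 𝒪] [IsLocalRing 𝒪]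

/-- Index set of the matrix-entry variables. -/
abbrev Idx : Type := GQ × Fin 2 × Fin 2

/-- The polynomial ring `𝒪[X_{σ,a,b}]`. -/
abbrev PolyRing (𝒪 : Type) [CommRing 𝒪] : Type := MvPolynomial Idx 𝒪

/-- Evaluation of the variables at the entries of a matrix representation. -/
noncomputable def evalHom {A : Type} [CommRing A] [IsLocalRing A] [Algebra 𝒪 A] (ρ : MatRep A) :
    PolyRing 𝒪 →ₐ[𝒪] A :=
  MvPolynomial.aeval (fun x : Idx => ρ.r x.1 x.2.1 x.2.2)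

@[simp]
theorem evalHom_X {A : Type} [CommRing A] [IsLocalRing A] [Algebra 𝒪 A] (ρ : MatRep A)
    (σ : GQ) (a b : Fin 2) :
    evalHom (𝒪 := 𝒪) ρ (MvPolynomial.X (σ, a, b)) = ρ.r σ a b := by
  simp [evalHom]

variable {ρbar : ResidualGaloisRep (ResidueField 𝒪)}

/-- Evaluation of the variables at the entries of `ρbar` (in the frame `F`). -/
noncomputable def chi (F : Frame 𝒪 ρbar) : PolyRing 𝒪 →ₐ[𝒪] ResidueField 𝒪 :=
  MvPolynomial.aeval (fun x : Idx => F.mat x.1 x.2.1 x.2.2)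

@[simp]
theorem chi_X (F : Frame 𝒪 ρbar) (σ : GQ) (a b : Fin 2) :
    chi F (MvPolynomial.X (σ, a, b)) = F.mat σ a b := by
  simp [chi]

theorem chi_C (F : Frame 𝒪 ρbar) (c : 𝒪) :
    chi F (MvPolynomial.C c) = residue 𝒪 c := by
  simp [chi, ResidueField.algebraMap_eq]

variable {A : Type} [CommRing A] [IsLocalRing A] [Algebra 𝒪 A] [IsLocalHom (algebraMap 𝒪 A)]

/-- Key compatibility: the reduction of `evalHom ρ` is `chi F`. -/
theorem residue_evalHom (F : Frame 𝒪 ρbar) (ρ : MatRep A) (h : ReducesTo F ρ)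
    (p : PolyRing 𝒪) :
    residue A (evalHom ρ p) = ResidueField.map (algebraMap 𝒪 A) (chi F p) := by
  induction p using MvPolynomial.induction_on with
  | C c =>
    rw [chi_C, ResidueField.map_residue, evalHom, MvPolynomial.aeval_C]
  | add p q hp hq => rw [map_add, map_add, hp, hq, map_add, map_add]
  | mul_X p x hp =>
    obtain ⟨σ, a, b⟩ := x
    rw [map_mul, map_mul, hp, map_mul, map_mul, evalHom_X, chi_X, h σ a b]

theorem ker_evalHom_le_ker_chi (F : Frame 𝒪 ρbar) (ρ : MatRep A) (h : ReducesTo F ρ) :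
    RingHom.ker (evalHom (𝒪 := 𝒪) ρ) ≤ RingHom.ker (chi F) := by
  intro p hp
  rw [RingHom.mem_ker] at hp ⊢
  have h1 := residue_evalHom F ρ h p
  rw [hp, map_zero] at h1
  exact (map_eq_zero_iff _ (RingHom.injective _)).mp h1.symm

theorem exists_pow_mem_ker_evalHom [IsArtinianRing A] (F : Frame 𝒪 ρbar) (ρ : MatRep A)
    (h : ReducesTo F ρ) :
    ∃ n : ℕ, ∀ q : PolyRing 𝒪, chi F q = 0 → q ^ n ∈ RingHom.ker (evalHom (𝒪 := 𝒪) ρ) := by
  obtain ⟨n, hn⟩ := h9_exists_pow_eq_zero (A := A)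
  refine ⟨n, fun q hq => ?_⟩
  rw [RingHom.mem_ker, map_pow]
  apply hn
  rw [← IsLocalRing.residue_eq_zero_iff, residue_evalHom F ρ h, hq, map_zero]

/-! ### Local structure of the quotients `P ⧸ J` -/

/-- The hypothesis on an ideal `J` of `P` making `P ⧸ J` a local `𝒪`-algebra with residue field
`k` and nilpotent maximal ideal: `J ≤ ker χ` and `ker χ` is nil modulo `J`. -/
structure NilBelow (F : Frame 𝒪 ρbar) (J : Ideal (PolyRing 𝒪)) : Prop where
  le : J ≤ RingHom.ker (chi F)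
  nil : ∃ n : ℕ, ∀ q : PolyRing 𝒪, chi F q = 0 → q ^ n ∈ J

theorem NilBelow.mono {F : Frame 𝒪 ρbar} {J J' : Ideal (PolyRing 𝒪)} (h : NilBelow F J)
    (hle : J ≤ J') (hle' : J' ≤ RingHom.ker (chi F)) : NilBelow F J' :=
  ⟨hle', by obtain ⟨n, hn⟩ := h.nil; exact ⟨n, fun q hq => hle (hn q hq)⟩⟩

theorem NilBelow.inf {F : Frame 𝒪 ρbar} {J J' : Ideal (PolyRing 𝒪)} (h : NilBelow F J)
    (h' : NilBelow F J') : NilBelow F (J ⊓ J') := by
  refine ⟨inf_le_left.trans h.le, ?_⟩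
  obtain ⟨n, hn⟩ := h.nil
  obtain ⟨m, hm⟩ := h'.nil
  refine ⟨n + m, fun q hq => ⟨?_, ?_⟩⟩
  · rw [pow_add]; exact Ideal.mul_mem_right _ _ (hn q hq)
  · rw [pow_add]; exact Ideal.mul_mem_left _ _ (hm q hq)

theorem nilBelow_ker_evalHom [IsArtinianRing A] (F : Frame 𝒪 ρbar) (ρ : MatRep A)
    (h : ReducesTo F ρ) : NilBelow F (RingHom.ker (evalHom (𝒪 := 𝒪) ρ)) :=
  ⟨ker_evalHom_le_ker_chi F ρ h, exists_pow_mem_ker_evalHom F ρ h⟩

section Quot

variable {F : Frame 𝒪 ρbar} {J : Ideal (PolyRing 𝒪)}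

/-- The map `P ⧸ J → k` induced by `χ`. -/
noncomputable def chiBar (F : Frame 𝒪 ρbar) (J : Ideal (PolyRing 𝒪))
    (hJ : J ≤ RingHom.ker (chi F)) : PolyRing 𝒪 ⧸ J →+* ResidueField 𝒪 :=
  Ideal.Quotient.lift J (chi F : PolyRing 𝒪 →+* ResidueField 𝒪) fun _ ha => hJ ha

@[simp]
theorem chiBar_mk (hJ : J ≤ RingHom.ker (chi F)) (p : PolyRing 𝒪) :
    chiBar F J hJ (Ideal.Quotient.mk J p) = chi F p := rfl

theorem NilBelow.isUnit_mk_iff (h : NilBelow F J) (p : PolyRing 𝒪) :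
    IsUnit (Ideal.Quotient.mk J p) ↔ chi F p ≠ 0 := by
  constructor
  · intro hu
    have := (chiBar F J h.le).isUnit_map hu
    rw [chiBar_mk] at this
    exact this.ne_zero
  · intro hne
    obtain ⟨c, hc⟩ := IsLocalRing.residue_surjective (chi F p)
    have hcu : IsUnit c := by
      rw [← IsLocalRing.residue_ne_zero_iff_isUnit, hc]; exact hne
    obtain ⟨n, hn⟩ := h.nil
    have hq : chi F (p - MvPolynomial.C c) = 0 := by
      rw [map_sub, chi_C, hc, sub_self]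
    have hnil : IsNilpotent (Ideal.Quotient.mk J (p - MvPolynomial.C c)) :=
      ⟨n, by rw [← map_pow]; exact Ideal.Quotient.eq_zero_iff_mem.mpr (hn _ hq)⟩
    have hcu' : IsUnit (Ideal.Quotient.mk J (MvPolynomial.C c)) :=
      ((Ideal.Quotient.mk J).comp MvPolynomial.C).isUnit_map hcu
    have : Ideal.Quotient.mk J p
        = Ideal.Quotient.mk J (MvPolynomial.C c) + Ideal.Quotient.mk J (p - MvPolynomial.C c) := by
      rw [← map_add]; congr 1; ring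
    rw [this]
    exact hnil.isUnit_add_left_of_commute hcu' (Commute.all _ _)

theorem NilBelow.isLocalHom_chiBar (h : NilBelow F J) : IsLocalHom (chiBar F J h.le) := by
  refine ⟨fun x hx => ?_⟩
  obtain ⟨p, rfl⟩ := Ideal.Quotient.mk_surjective x
  rw [chiBar_mk] at hx
  exact (h.isUnit_mk_iff p).mpr hx.ne_zero

theorem NilBelow.isLocalRing (h : NilBelow F J) : IsLocalRing (PolyRing 𝒪 ⧸ J) :=
  haveI := h.isLocalHom_chiBar
  RingHom.domain_isLocalRing (chiBar F J h.le)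

theorem NilBelow.isLocalHom_algebraMap (h : NilBelow F J) :
    IsLocalHom (algebraMap 𝒪 (PolyRing 𝒪 ⧸ J)) := by
  refine ⟨fun c hc => ?_⟩
  have : algebraMap 𝒪 (PolyRing 𝒪 ⧸ J) c = Ideal.Quotient.mk J (MvPolynomial.C c) := rfl
  rw [this, h.isUnit_mk_iff, chi_C] at hc
  exact (IsLocalRing.residue_ne_zero_iff_isUnit c).mp hc

theorem NilBelow.mk_mem_maximalIdeal_iff (h : NilBelow F J) [IsLocalRing (PolyRing 𝒪 ⧸ J)]
    (p : PolyRing 𝒪) :
    Ideal.Quotient.mk J p ∈ maximalIdeal (PolyRing 𝒪 ⧸ J) ↔ chi F p = 0 := by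
  rw [IsLocalRing.mem_maximalIdeal, mem_nonunits_iff, h.isUnit_mk_iff, not_not]

theorem NilBelow.residue_mk (h : NilBelow F J) [IsLocalRing (PolyRing 𝒪 ⧸ J)]
    [IsLocalHom (algebraMap 𝒪 (PolyRing 𝒪 ⧸ J))] (p : PolyRing 𝒪) :
    residue (PolyRing 𝒪 ⧸ J) (Ideal.Quotient.mk J p)
      = ResidueField.map (algebraMap 𝒪 (PolyRing 𝒪 ⧸ J)) (chi F p) := by
  obtain ⟨c, hc⟩ := IsLocalRing.residue_surjective (chi F p)
  rw [← hc, ResidueField.map_residue, ← sub_eq_zero, ← map_sub,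
    IsLocalRing.residue_eq_zero_iff]
  have : algebraMap 𝒪 (PolyRing 𝒪 ⧸ J) c = Ideal.Quotient.mk J (MvPolynomial.C c) := rfl
  rw [this, ← map_sub, h.mk_mem_maximalIdeal_iff, map_sub, chi_C, hc, sub_self]

theorem NilBelow.residue_surjective (h : NilBelow F J) [IsLocalRing (PolyRing 𝒪 ⧸ J)] :
    Function.Surjective
      (IsLocalRing.residue (PolyRing 𝒪 ⧸ J) ∘ algebraMap 𝒪 (PolyRing 𝒪 ⧸ J)) := by
  intro y
  obtain ⟨x, rfl⟩ := IsLocalRing.residue_surjective y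
  obtain ⟨p, rfl⟩ := Ideal.Quotient.mk_surjective x
  obtain ⟨c, hc⟩ := IsLocalRing.residue_surjective (chi F p)
  refine ⟨c, ?_⟩
  rw [Function.comp_apply, ← sub_eq_zero, ← map_sub, IsLocalRing.residue_eq_zero_iff]
  have : algebraMap 𝒪 (PolyRing 𝒪 ⧸ J) c = Ideal.Quotient.mk J (MvPolynomial.C c) := rfl
  rw [this, ← map_sub, h.mk_mem_maximalIdeal_iff, map_sub, chi_C, hc, sub_self]

/-- The maximal ideal of `P ⧸ J` is nilpotent (uniformly). -/
theorem NilBelow.exists_pow_eq_zero (h : NilBelow F J) [IsLocalRing (PolyRing 𝒪 ⧸ J)] :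
    ∃ n : ℕ, ∀ x ∈ maximalIdeal (PolyRing 𝒪 ⧸ J), x ^ n = 0 := by
  obtain ⟨n, hn⟩ := h.nil
  refine ⟨n, fun x hx => ?_⟩
  obtain ⟨p, rfl⟩ := Ideal.Quotient.mk_surjective x
  rw [h.mk_mem_maximalIdeal_iff] at hx
  rw [← map_pow]
  exact Ideal.Quotient.eq_zero_iff_mem.mpr (hn p hx)

end Quot

/-! ### The tautological representation on `P ⧸ J` -/

section Taut

/-- The relation `X_{σ,a,b} - δ_{ab}`. -/
noncomputable def relOne (𝒪 : Type) [CommRing 𝒪] (σ : GQ) (a b : Fin 2) : PolyRing 𝒪 :=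
  MvPolynomial.X (σ, a, b) - MvPolynomial.C ((1 : Matrix (Fin 2) (Fin 2) 𝒪) a b)

/-- The relation `X_{στ,a,b} - ∑_c X_{σ,a,c} X_{τ,c,b}`. -/
noncomputable def relMul (𝒪 : Type) [CommRing 𝒪] (σ τ : GQ) (a b : Fin 2) : PolyRing 𝒪 :=
  MvPolynomial.X (σ * τ, a, b)
    - ∑ c : Fin 2, MvPolynomial.X (σ, a, c) * MvPolynomial.X (τ, c, b)

theorem evalHom_relOne {A : Type} [CommRing A] [IsLocalRing A] [Algebra 𝒪 A] (ρ : MatRep A)
    (σ : GQ) (a b : Fin 2) : evalHom ρ (relOne 𝒪 σ a b) = (ρ.r σ - 1) a b := by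
  rw [relOne, map_sub, evalHom_X, Matrix.sub_apply]
  congr 1
  rw [evalHom, MvPolynomial.aeval_C]
  by_cases hab : a = b
  · subst hab; simp
  · simp [Matrix.one_apply_ne hab]

theorem evalHom_relMul {A : Type} [CommRing A] [IsLocalRing A] [Algebra 𝒪 A] (ρ : MatRep A)
    (σ τ : GQ) (a b : Fin 2) : evalHom ρ (relMul 𝒪 σ τ a b) = 0 := by
  rw [relMul, map_sub, evalHom_X, map_sum, map_mul ρ.r, Matrix.mul_apply, sub_eq_zero]
  refine Finset.sum_congr rfl fun c _ => ?_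
  rw [map_mul, evalHom_X, evalHom_X]

/-- The relations making the matrices `(X_{σ,a,b})` into a continuous representation
modulo `J`. -/
structure TautOK (J : Ideal (PolyRing 𝒪)) : Prop where
  one : ∀ a b, relOne 𝒪 1 a b ∈ J
  mul : ∀ σ τ a b, relMul 𝒪 σ τ a b ∈ J
  cont : ∃ L : IntermediateField ℚ (AlgebraicClosure ℚ), FiniteDimensional ℚ L ∧
    ∀ σ : GQ, (∀ x ∈ L, σ x = x) → ∀ a b, relOne 𝒪 σ a b ∈ J

theorem TautOK.mono {J J' : Ideal (PolyRing 𝒪)} (h : TautOK J) (hle : J ≤ J') : TautOK J' :=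
  ⟨fun a b => hle (h.one a b), fun σ τ a b => hle (h.mul σ τ a b), by
    obtain ⟨L, hL, hL'⟩ := h.cont
    exact ⟨L, hL, fun σ hσ a b => hle (hL' σ hσ a b)⟩⟩

theorem TautOK.inf {J J' : Ideal (PolyRing 𝒪)} (h : TautOK J) (h' : TautOK J') :
    TautOK (J ⊓ J') := by
  refine ⟨fun a b => ⟨h.one a b, h'.one a b⟩, fun σ τ a b => ⟨h.mul σ τ a b, h'.mul σ τ a b⟩, ?_⟩
  obtain ⟨L, hL, hL'⟩ := h.cont
  obtain ⟨M, hM, hM'⟩ := h'.cont
  refine ⟨L ⊔ M, inferInstance, fun σ hσ a b => ⟨?_, ?_⟩⟩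
  · exact hL' σ (fun x hx => hσ x ((le_sup_left : L ≤ L ⊔ M) hx)) a b
  · exact hM' σ (fun x hx => hσ x ((le_sup_right : M ≤ L ⊔ M) hx)) a b

theorem tautOK_ker_evalHom {A : Type} [CommRing A] [IsLocalRing A] [Algebra 𝒪 A]
    [IsArtinianRing A] (ρ : MatRep A) : TautOK (RingHom.ker (evalHom (𝒪 := 𝒪) ρ)) := by
  refine ⟨fun a b => ?_, fun σ τ a b => ?_, ?_⟩
  · rw [RingHom.mem_ker, evalHom_relOne, map_one, sub_self, Matrix.zero_apply]
  · rw [RingHom.mem_ker, evalHom_relMul]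
  · obtain ⟨n, hn⟩ := h9_exists_maximalIdeal_pow_eq_bot (A := A)
    obtain ⟨L, hL, hL'⟩ := ρ.cont n
    refine ⟨L, hL, fun σ hσ a b => ?_⟩
    rw [RingHom.mem_ker, evalHom_relOne]
    have := hL' σ hσ a b
    rwa [hn, Ideal.mem_bot] at this

variable {J : Ideal (PolyRing 𝒪)}

/-- The tautological representation on `P ⧸ J`. -/
noncomputable def tautRep (J : Ideal (PolyRing 𝒪)) [IsLocalRing (PolyRing 𝒪 ⧸ J)]
    (h : TautOK J) : MatRep (PolyRing 𝒪 ⧸ J) where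
  r :=
    { toFun := fun σ => Matrix.of fun a b => Ideal.Quotient.mk J (MvPolynomial.X (σ, a, b))
      map_one' := by
        ext a b
        have := Ideal.Quotient.eq_zero_iff_mem.mpr (h.one a b)
        rw [relOne, map_sub, sub_eq_zero] at this
        rw [Matrix.of_apply, this]
        by_cases hab : a = b
        · subst hab; simp
        · simp [Matrix.one_apply_ne hab]
      map_mul' := fun σ τ => by
        ext a b
        have := Ideal.Quotient.eq_zero_iff_mem.mpr (h.mul σ τ a b)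
        rw [relMul, map_sub, sub_eq_zero] at this
        rw [Matrix.of_apply, this, Matrix.mul_apply, map_sum]
        refine Finset.sum_congr rfl fun c _ => ?_
        rw [map_mul, Matrix.of_apply, Matrix.of_apply] }
  cont := by
    intro n
    obtain ⟨L, hL, hL'⟩ := h.cont
    refine ⟨L, hL, fun σ hσ a b => ?_⟩
    have := Ideal.Quotient.eq_zero_iff_mem.mpr (hL' σ hσ a b)
    rw [relOne, map_sub, sub_eq_zero] at this
    have h0 : ((Matrix.of fun a b => Ideal.Quotient.mk J (MvPolynomial.X (σ, a, b))) - 1) a b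
        = (0 : PolyRing 𝒪 ⧸ J) := by
      rw [Matrix.sub_apply, Matrix.of_apply, this, sub_eq_zero]
      by_cases hab : a = b
      · subst hab; simp
      · simp [Matrix.one_apply_ne hab]
    show ((Matrix.of fun a b => Ideal.Quotient.mk J (MvPolynomial.X (σ, a, b))) - 1) a b ∈ _
    rw [h0]
    exact Ideal.zero_mem _

@[simp]
theorem tautRep_apply [IsLocalRing (PolyRing 𝒪 ⧸ J)] (h : TautOK J) (σ : GQ) (a b : Fin 2) :
    (tautRep J h).r σ a b = Ideal.Quotient.mk J (MvPolynomial.X (σ, a, b)) := rfl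

theorem evalHom_tautRep [IsLocalRing (PolyRing 𝒪 ⧸ J)] (h : TautOK J) :
    evalHom (𝒪 := 𝒪) (tautRep J h) = Ideal.Quotient.mkₐ 𝒪 J := by
  apply MvPolynomial.algHom_ext
  rintro ⟨σ, a, b⟩
  rw [evalHom_X, tautRep_apply, Ideal.Quotient.mkₐ_eq_mk]

end Taut

/-! ### Rigidity relations -/

section Rigid

/-- The relations cutting out the rigid normal form. -/
structure RigidOK (F : Frame 𝒪 ρbar) (J : Ideal (PolyRing 𝒪)) : Prop where
  col_zero : (MvPolynomial.X (F.g₀, 0, 0) : PolyRing 𝒪) ∈ J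
  col_one : (MvPolynomial.X (F.g₀, 1, 0) - 1 : PolyRing 𝒪) ∈ J
  entry : (MvPolynomial.X (F.g₁, F.i, F.j) - MvPolynomial.C F.c : PolyRing 𝒪) ∈ J

theorem RigidOK.mono {F : Frame 𝒪 ρbar} {J J' : Ideal (PolyRing 𝒪)} (h : RigidOK F J)
    (hle : J ≤ J') : RigidOK F J' :=
  ⟨hle h.col_zero, hle h.col_one, hle h.entry⟩

theorem RigidOK.inf {F : Frame 𝒪 ρbar} {J J' : Ideal (PolyRing 𝒪)} (h : RigidOK F J)
    (h' : RigidOK F J') : RigidOK F (J ⊓ J') :=
  ⟨⟨h.col_zero, h'.col_zero⟩, ⟨h.col_one, h'.col_one⟩, ⟨h.entry, h'.entry⟩⟩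

theorem rigidOK_ker_evalHom (F : Frame 𝒪 ρbar) (ρ : MatRep A) (h : IsRigid F ρ) :
    RigidOK F (RingHom.ker (evalHom (𝒪 := 𝒪) ρ)) := by
  refine ⟨?_, ?_, ?_⟩
  · rw [RingHom.mem_ker, evalHom_X, h.col_zero]
  · rw [RingHom.mem_ker, map_sub, evalHom_X, h.col_one, map_one, sub_self]
  · rw [RingHom.mem_ker, map_sub, evalHom_X, h.entry, evalHom, MvPolynomial.aeval_C, sub_self]

theorem isRigid_tautRep {F : Frame 𝒪 ρbar} {J : Ideal (PolyRing 𝒪)}
    [IsLocalRing (PolyRing 𝒪 ⧸ J)] [IsLocalHom (algebraMap 𝒪 (PolyRing 𝒪 ⧸ J))]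
    (hN : NilBelow F J) (hT : TautOK J) (hR : RigidOK F J) : IsRigid F (tautRep J hT) := by
  refine ⟨fun σ a b => ?_, ?_, ?_, ?_⟩
  · rw [tautRep_apply, hN.residue_mk, chi_X]
  · rw [tautRep_apply]; exact Ideal.Quotient.eq_zero_iff_mem.mpr hR.col_zero
  · rw [tautRep_apply]
    have := Ideal.Quotient.eq_zero_iff_mem.mpr hR.col_one
    rwa [map_sub, map_one, sub_eq_zero] at this
  · rw [tautRep_apply]
    have := Ideal.Quotient.eq_zero_iff_mem.mpr hR.entry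
    rwa [map_sub, sub_eq_zero] at this

end Rigid

/-! ### The family `U` -/

section U

variable (F : Frame 𝒪 ρbar)
variable (𝒟 : ∀ ⦃A : Type⦄ [CommRing A] [IsLocalRing A] [Algebra 𝒪 A], GaloisRepAdic A → Prop)

/-- The family `U`: ideals `I` of `P` such that `P ⧸ I` is an Artinian test algebra on which
the tautological matrices form a rigid representation of type `𝒟`. -/
def InU (I : Ideal (PolyRing 𝒪)) : Prop :=
  ∃ (_ : IsLocalRing (PolyRing 𝒪 ⧸ I)) (_ : IsLocalHom (algebraMap 𝒪 (PolyRing 𝒪 ⧸ I))),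
    IsArtinianTestAlgebra 𝒪 (PolyRing 𝒪 ⧸ I) ∧
    ∃ ρ : MatRep (PolyRing 𝒪 ⧸ I),
      (∀ σ a b, ρ.r σ a b = Ideal.Quotient.mk I (MvPolynomial.X (σ, a, b))) ∧
      IsRigid F ρ ∧ 𝒟 ρ.toGaloisRepAdic

/-- Intrinsic description of the family `U` through polynomial relations. -/
structure InUCore (I : Ideal (PolyRing 𝒪)) : Prop where
  nilBelow : NilBelow F I
  taut : TautOK I
  rigid : RigidOK F I
  artinian : IsArtinianRing (PolyRing 𝒪 ⧸ I)
  isOfType : letI := nilBelow.isLocalRing; 𝒟 (tautRep I taut).toGaloisRepAdic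

variable {F 𝒟}

theorem InUCore.isArtinianTestAlgebra {I : Ideal (PolyRing 𝒪)} (h : InUCore F 𝒟 I)
    [IsLocalRing (PolyRing 𝒪 ⧸ I)] : IsArtinianTestAlgebra 𝒪 (PolyRing 𝒪 ⧸ I) :=
  ⟨h.nilBelow.isLocalHom_algebraMap, h.nilBelow.residue_surjective, h.artinian⟩

theorem InUCore.inU {I : Ideal (PolyRing 𝒪)} (h : InUCore F 𝒟 I) : InU F 𝒟 I := by
  haveI := h.nilBelow.isLocalRing
  haveI := h.nilBelow.isLocalHom_algebraMap
  exact ⟨h.nilBelow.isLocalRing, h.nilBelow.isLocalHom_algebraMap, h.isArtinianTestAlgebra,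
    tautRep I h.taut, fun _ _ _ => rfl, isRigid_tautRep h.nilBelow h.taut h.rigid, h.isOfType⟩

theorem InU.core {I : Ideal (PolyRing 𝒪)} (h : InU F 𝒟 I) : InUCore F 𝒟 I := by
  obtain ⟨hloc, hlh, hA, ρ, hρ, hrig, hD⟩ := h
  haveI := hA.isArtinian
  have hev : evalHom (𝒪 := 𝒪) ρ = Ideal.Quotient.mkₐ 𝒪 I := by
    apply MvPolynomial.algHom_ext
    rintro ⟨σ, a, b⟩
    rw [evalHom_X, hρ, Ideal.Quotient.mkₐ_eq_mk]
  have hker : RingHom.ker (evalHom (𝒪 := 𝒪) ρ) = I := by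
    rw [hev]; exact Ideal.Quotient.mkₐ_ker 𝒪 I
  have hT : TautOK I := hker ▸ tautOK_ker_evalHom ρ
  refine ⟨hker ▸ nilBelow_ker_evalHom F ρ hrig.reduces, hT,
    hker ▸ rigidOK_ker_evalHom F ρ hrig, hA.isArtinian, ?_⟩
  have : tautRep I hT = ρ := MatRep.ext fun σ => Matrix.ext fun a b => (hρ σ a b).symm
  rw [this]
  exact hD

theorem inU_iff_core {I : Ideal (PolyRing 𝒪)} : InU F 𝒟 I ↔ InUCore F 𝒟 I :=
  ⟨InU.core, InUCore.inU⟩

/-- Transport of `𝒟` along the bridge. -/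
theorem h9_isOfType_map (h𝒟 : IsDeformationCondition 𝒪 𝒟)
    {A B : Type} [CommRing A] [IsLocalRing A] [Algebra 𝒪 A] [CommRing B] [IsLocalRing B]
    [Algebra 𝒪 B] (hB : IsArtinianTestAlgebra 𝒪 B) (φ : A →+* B) (hφ : IsLocalHom φ)
    (ρ : MatRep A) :
    𝒟 ((ρ.toGaloisRepAdic).baseChangeAlong φ hφ) ↔ 𝒟 (ρ.map φ hφ).toGaloisRepAdic :=
  ⟨fun h => h𝒟.of_isEquiv hB (h9_isEquiv_map φ hφ ρ) h,
    fun h => h𝒟.of_isEquiv hB ⟨(h9MapEquiv φ hφ ρ).symm⟩ h⟩

theorem tautRep_map_eq {I J : Ideal (PolyRing 𝒪)} [IsLocalRing (PolyRing 𝒪 ⧸ I)]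
    [IsLocalRing (PolyRing 𝒪 ⧸ J)] (hI : TautOK I) (hJ : TautOK J)
    (φ : PolyRing 𝒪 ⧸ I →+* PolyRing 𝒪 ⧸ J) (hφ : IsLocalHom φ)
    (h : ∀ p, φ (Ideal.Quotient.mk I p) = Ideal.Quotient.mk J p) :
    (tautRep I hI).map φ hφ = tautRep J hJ :=
  MatRep.ext fun σ => Matrix.ext fun a b => by
    rw [MatRep.map_r_apply, tautRep_apply, tautRep_apply, h]

/-- `U` is upward closed below `ker χ`. -/
theorem InUCore.mono (h𝒟 : IsDeformationCondition 𝒪 𝒟) {I J : Ideal (PolyRing 𝒪)}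
    (h : InUCore F 𝒟 I) (hIJ : I ≤ J) (hJ : J ≤ RingHom.ker (chi F)) : InUCore F 𝒟 J := by
  have hN : NilBelow F J := h.nilBelow.mono hIJ hJ
  have hT : TautOK J := h.taut.mono hIJ
  haveI := h.nilBelow.isLocalRing
  haveI := hN.isLocalRing
  haveI := h.artinian
  have hart : IsArtinianRing (PolyRing 𝒪 ⧸ J) :=
    (Ideal.Quotient.factor_surjective hIJ).isArtinianRing
  refine ⟨hN, hT, h.rigid.mono hIJ, hart, ?_⟩
  have hA := h.isArtinianTestAlgebra
  have hB : IsArtinianTestAlgebra 𝒪 (PolyRing 𝒪 ⧸ J) :=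
    ⟨hN.isLocalHom_algebraMap, hN.residue_surjective, hart⟩
  have hφ : IsLocalHom ((Ideal.Quotient.factorₐ 𝒪 hIJ : _ →ₐ[𝒪] _) :
      PolyRing 𝒪 ⧸ I →+* PolyRing 𝒪 ⧸ J) :=
    IsLocalHom.of_surjective _ (Ideal.Quotient.factor_surjective hIJ)
  have h1 := h𝒟.baseChangeAlong hA hB (Ideal.Quotient.factorₐ 𝒪 hIJ) hφ h.isOfType
  rw [h9_isOfType_map h𝒟 hB] at h1
  rw [tautRep_map_eq h.taut hT _ hφ fun _ => rfl] at h1
  exact h1

theorem InU.mono (h𝒟 : IsDeformationCondition 𝒪 𝒟) {I J : Ideal (PolyRing 𝒪)}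
    (h : InU F 𝒟 I) (hIJ : I ≤ J) (hJ : J ≤ RingHom.ker (chi F)) : InU F 𝒟 J :=
  (h.core.mono h𝒟 hIJ hJ).inU

/-- `U` is closed under finite intersections (fibre products). -/
theorem InUCore.inf [Finite (ResidueField 𝒪)] (h𝒟 : IsDeformationCondition 𝒪 𝒟)
    {I J : Ideal (PolyRing 𝒪)} (hI : InUCore F 𝒟 I) (hJ : InUCore F 𝒟 J) :
    InUCore F 𝒟 (I ⊓ J) := by
  have hNQ : NilBelow F (I ⊓ J) := hI.nilBelow.inf hJ.nilBelow
  have hTQ : TautOK (I ⊓ J) := hI.taut.inf hJ.taut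
  have hC : InUCore F 𝒟 (I ⊔ J) := hI.mono h𝒟 le_sup_left (sup_le hI.nilBelow.le hJ.nilBelow.le)
  haveI := hI.nilBelow.isLocalRing
  haveI := hJ.nilBelow.isLocalRing
  haveI := hC.nilBelow.isLocalRing
  haveI := hNQ.isLocalRing
  have hAt := hI.isArtinianTestAlgebra
  have hBt := hJ.isArtinianTestAlgebra
  have hCt := hC.isArtinianTestAlgebra
  haveI : Finite (PolyRing 𝒪 ⧸ I) := h9_finite_of_isArtinianTestAlgebra hAt
  haveI : Finite (PolyRing 𝒪 ⧸ J) := h9_finite_of_isArtinianTestAlgebra hBt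
  have hinj : Function.Injective (fun x : PolyRing 𝒪 ⧸ (I ⊓ J) =>
      ((Ideal.Quotient.factorₐ 𝒪 (inf_le_left : I ⊓ J ≤ I)) x,
        (Ideal.Quotient.factorₐ 𝒪 (inf_le_right : I ⊓ J ≤ J)) x)) := by
    intro x y hxy
    obtain ⟨p, rfl⟩ := Ideal.Quotient.mk_surjective x
    obtain ⟨q, rfl⟩ := Ideal.Quotient.mk_surjective y
    rw [Prod.mk.injEq] at hxy
    rw [Ideal.Quotient.eq]
    exact ⟨Ideal.Quotient.eq.mp hxy.1, Ideal.Quotient.eq.mp hxy.2⟩
  haveI : Finite (PolyRing 𝒪 ⧸ (I ⊓ J)) := Finite.of_injective _ hinj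
  have hart : IsArtinianRing (PolyRing 𝒪 ⧸ (I ⊓ J)) := isArtinian_of_finite
  refine ⟨hNQ, hTQ, hI.rigid.inf hJ.rigid, hart, ?_⟩
  have hQt : IsArtinianTestAlgebra 𝒪 (PolyRing 𝒪 ⧸ (I ⊓ J)) :=
    ⟨hNQ.isLocalHom_algebraMap, hNQ.residue_surjective, hart⟩
  have hpA : IsLocalHom ((Ideal.Quotient.factorₐ 𝒪 (inf_le_left : I ⊓ J ≤ I) : _ →ₐ[𝒪] _) :
      PolyRing 𝒪 ⧸ (I ⊓ J) →+* PolyRing 𝒪 ⧸ I) :=
    IsLocalHom.of_surjective _ (Ideal.Quotient.factor_surjective (inf_le_left : I ⊓ J ≤ I))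
  have hpB : IsLocalHom ((Ideal.Quotient.factorₐ 𝒪 (inf_le_right : I ⊓ J ≤ J) : _ →ₐ[𝒪] _) :
      PolyRing 𝒪 ⧸ (I ⊓ J) →+* PolyRing 𝒪 ⧸ J) :=
    IsLocalHom.of_surjective _ (Ideal.Quotient.factor_surjective (inf_le_right : I ⊓ J ≤ J))
  refine h𝒟.of_fibreProduct hAt hBt hCt hQt
    (Ideal.Quotient.factorₐ 𝒪 (le_sup_left : I ≤ I ⊔ J))
    (Ideal.Quotient.factorₐ 𝒪 (le_sup_right : J ≤ I ⊔ J))
    (Ideal.Quotient.factorₐ 𝒪 (inf_le_left : I ⊓ J ≤ I))
    (Ideal.Quotient.factorₐ 𝒪 (inf_le_right : I ⊓ J ≤ J)) hpA hpB ?_ hinj ?_ ?_ ?_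
  · rw [Ideal.Quotient.factorₐ_comp, Ideal.Quotient.factorₐ_comp]
  · intro a b hab
    obtain ⟨p, rfl⟩ := Ideal.Quotient.mk_surjective a
    obtain ⟨q, rfl⟩ := Ideal.Quotient.mk_surjective b
    have hpq : p - q ∈ I ⊔ J := Ideal.Quotient.eq.mp hab
    obtain ⟨i, hi, j, hj, hij⟩ := Submodule.mem_sup.mp hpq
    refine ⟨Ideal.Quotient.mk (I ⊓ J) (p - i), ?_, ?_⟩
    · show Ideal.Quotient.mk I (p - i) = Ideal.Quotient.mk I p
      rw [Ideal.Quotient.eq]
      simpa using I.neg_mem hi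
    · show Ideal.Quotient.mk J (p - i) = Ideal.Quotient.mk J q
      rw [Ideal.Quotient.eq]
      have : p - i - q = j := by linear_combination -hij
      rw [this]; exact hj
  · rw [h9_isOfType_map h𝒟 hAt]
    rw [tautRep_map_eq hTQ hI.taut _ hpA fun _ => rfl]
    exact hI.isOfType
  · rw [h9_isOfType_map h𝒟 hBt]
    rw [tautRep_map_eq hTQ hJ.taut _ hpB fun _ => rfl]
    exact hJ.isOfType

theorem inU_inf [Finite (ResidueField 𝒪)] (h𝒟 : IsDeformationCondition 𝒪 𝒟)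
    {I J : Ideal (PolyRing 𝒪)} (hI : InU F 𝒟 I) (hJ : InU F 𝒟 J) : InU F 𝒟 (I ⊓ J) :=
  (hI.core.inf h𝒟 hJ.core).inU

/-- "The subalgebra generated by the entries": for a rigid pair `(A, ρ)` of type `𝒟` over an
Artinian test algebra, the kernel of `evalHom ρ` belongs to `U`. -/
theorem inUCore_ker_evalHom [Finite (ResidueField 𝒪)] (h𝒟 : IsDeformationCondition 𝒪 𝒟)
    (hA : IsArtinianTestAlgebra 𝒪 A) (ρ : MatRep A) (hr : IsRigid F ρ)
    (hD : 𝒟 ρ.toGaloisRepAdic) : InUCore F 𝒟 (RingHom.ker (evalHom (𝒪 := 𝒪) ρ)) := by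
  haveI := hA.isArtinian
  have hN := nilBelow_ker_evalHom F ρ hr.reduces
  have hT := tautOK_ker_evalHom (𝒪 := 𝒪) ρ
  haveI := hN.isLocalRing
  haveI : Finite A := h9_finite_of_isArtinianTestAlgebra hA
  have hinj : Function.Injective (Ideal.kerLiftAlg (evalHom (𝒪 := 𝒪) ρ)) :=
    Ideal.kerLiftAlg_injective _
  haveI : Finite (PolyRing 𝒪 ⧸ RingHom.ker (evalHom (𝒪 := 𝒪) ρ)) := Finite.of_injective _ hinj
  have hart : IsArtinianRing (PolyRing 𝒪 ⧸ RingHom.ker (evalHom (𝒪 := 𝒪) ρ)) :=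
    isArtinian_of_finite
  refine ⟨hN, hT, rigidOK_ker_evalHom F ρ hr, hart, ?_⟩
  have hB : IsArtinianTestAlgebra 𝒪 (PolyRing 𝒪 ⧸ RingHom.ker (evalHom (𝒪 := 𝒪) ρ)) :=
    ⟨hN.isLocalHom_algebraMap, hN.residue_surjective, hart⟩
  have hι : IsLocalHom ((Ideal.kerLiftAlg (evalHom (𝒪 := 𝒪) ρ) : _ →ₐ[𝒪] A) :
      PolyRing 𝒪 ⧸ RingHom.ker (evalHom (𝒪 := 𝒪) ρ) →+* A) := by
    refine ⟨fun x hx => ?_⟩
    obtain ⟨p, rfl⟩ := Ideal.Quotient.mk_surjective x
    rw [hN.isUnit_mk_iff]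
    have h1 : IsUnit (evalHom (𝒪 := 𝒪) ρ p) := hx
    rw [← IsLocalRing.residue_ne_zero_iff_isUnit, residue_evalHom F ρ hr.reduces] at h1
    exact fun h0 => h1 (by rw [h0, map_zero])
  refine h𝒟.of_baseChangeAlong_injective hB hA (Ideal.kerLiftAlg (evalHom (𝒪 := 𝒪) ρ)) hι hinj ?_
  rw [h9_isOfType_map h𝒟 hA]
  have : (tautRep _ hT).map _ hι = ρ := MatRep.ext fun σ => Matrix.ext fun a b => by
    rw [MatRep.map_r_apply, tautRep_apply]
    exact evalHom_X ρ σ a b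
  rw [this]
  exact hD

theorem ker_evalHom_inU [Finite (ResidueField 𝒪)] (h𝒟 : IsDeformationCondition 𝒪 𝒟)
    (hA : IsArtinianTestAlgebra 𝒪 A) (ρ : MatRep A) (hr : IsRigid F ρ)
    (hD : 𝒟 ρ.toGaloisRepAdic) : InU F 𝒟 (RingHom.ker (evalHom (𝒪 := 𝒪) ρ)) :=
  (inUCore_ker_evalHom h𝒟 hA ρ hr hD).inU

end U

end Poly

end Fermat.Agent.Lib.S53
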