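-- Kaplansky-style lemma: elements of a valuation ring A of a field K
-- which are roots of polynomials over an integrally closed O with some coefficient a unit of A
-- are fractions a / s with a, s in O and s a unit of A.
import Mathlib

set_option autoImplicit false

namespace Fermat.Agent.Lib.Helper9

open Polynomial

theorem kaplansky_aux {K O : Type*} [Field K] [CommRing O] [Algebra O K]
    (hO : ∀ x : K, IsIntegral O x → ∃ b : O, algebraMap O K b = x)
    (A : ValuationSubring K) (x : K) (hx : x ∈ A) :
    ∀ (n : ℕ) (p : Polynomial O), p.natDegree ≤ n → Polynomial.aeval x p = 0 →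
      (∃ i, algebraMap O K (p.coeff i) ∉ A.nonunits) →
      ∃ a s : O, algebraMap O K s ∉ A.nonunits ∧ algebraMap O K s * x = algebraMap O K a := by
  intro n
  induction n with
  | zero =>
    intro p hp hpx hcoeff
    exfalso
    rw [Nat.le_zero] at hp
    rw [eq_C_of_natDegree_eq_zero hp, aeval_C] at hpx
    obtain ⟨i, hi⟩ := hcoeff
    apply hi
    rw [eq_C_of_natDegree_eq_zero hp, coeff_C]
    split_ifs
    · rw [hpx]; exact A.nonunits.zero_mem
    · rw [map_zero]; exact A.nonunits.zero_mem
  | succ n ih =>
    intro p hp hpx hcoeff
    by_cases hdeg : p.natDegree ≤ n
    · exact ih p hdeg hpx hcoeff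
    have hdeg' : p.natDegree = n + 1 := le_antisymm hp (by omega)
    set c : O := p.leadingCoeff with hc
    have hbint : IsIntegral O (c • x) := isIntegral_leadingCoeff_smul p x hpx
    obtain ⟨b, hb⟩ := hO _ hbint
    rw [Algebra.smul_def] at hb
    by_cases hcA : algebraMap O K c ∈ A.nonunits
    · -- the reduced polynomial
      set p' : Polynomial O := p.eraseLead + C b * X ^ n with hp'
      have hp'deg : p'.natDegree ≤ n := by
        refine (natDegree_add_le _ _).trans (max_le ?_ ?_)
        · have := eraseLead_natDegree_le p
          omega
        · exact natDegree_C_mul_X_pow_le b n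
      have hp'x : aeval x p' = 0 := by
        have h1 : p = p.eraseLead + C c * X ^ (n + 1) := by
          have := eraseLead_add_C_mul_X_pow p
          rw [hdeg'] at this
          exact this.symm
        have h2 : aeval x p = aeval x p.eraseLead + algebraMap O K c * x ^ (n + 1) := by
          conv_lhs => rw [h1]
          rw [map_add, map_mul, aeval_C, map_pow, aeval_X]
        rw [hp', map_add, map_mul, aeval_C, map_pow, aeval_X, hb]
        rw [hpx] at h2
        rw [h2]
        ring
      by_cases hcoeff' : ∃ i, algebraMap O K (p'.coeff i) ∉ A.nonunits
      · exact ih p' hp'deg hp'x hcoeff'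
      · exfalso
        push Not at hcoeff'
        obtain ⟨i, hi⟩ := hcoeff
        -- b is a nonunit as c is a nonunit and x ∈ A
        have hbA : algebraMap O K b ∈ A.nonunits := by
          rw [ValuationSubring.mem_nonunits_iff] at hcA ⊢
          have hxv : A.valuation x ≤ 1 := (A.valuation_le_one_iff x).mpr hx
          rw [hb, map_mul]
          calc A.valuation (algebraMap O K c) * A.valuation x
              ≤ A.valuation (algebraMap O K c) * 1 := by gcongr
            _ = A.valuation (algebraMap O K c) := mul_one _
            _ < 1 := hcA
        by_cases hin : i = n
        · subst hin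
          have h4 := hcoeff' i
          have h5 : p'.coeff i = p.coeff i + b := by
            rw [hp', coeff_add, coeff_C_mul, coeff_X_pow, if_pos rfl, mul_one,
              eraseLead_coeff_of_ne i (by omega)]
          rw [h5] at h4
          apply hi
          have : algebraMap O K (p.coeff i) = algebraMap O K (p.coeff i + b) - algebraMap O K b := by
            rw [map_add]; ring
          rw [this]
          exact A.nonunits.sub_mem h4 hbA
        · by_cases hin' : i = n + 1
          · subst hin'
            apply hi
            have : p.coeff (n + 1) = c := by rw [hc, leadingCoeff, hdeg']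
            rw [this]
            exact hcA
          · apply hi
            have h4 := hcoeff' i
            have h5 : p'.coeff i = p.coeff i := by
              rw [hp', coeff_add, coeff_C_mul, coeff_X_pow, if_neg hin, mul_zero, add_zero,
                eraseLead_coeff_of_ne i (by omega)]
            rw [h5] at h4
            exact h4
    · exact ⟨b, c, hcA, hb.symm⟩

end Fermat.Agent.Lib.Helper9
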