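-- Valuation subrings of Qbar over a prime of the ring of all algebraic integers:
-- fraction representation, uniqueness, stability under a Frobenius automorphism.
import Mathlib
import Fermat.Agent.Lib.Helper9.Kaplansky
import Fermat.Prelude.Def_EllipticCurve_FrobeniusTrace
import Fermat.Prelude.Def_FLTPrelim_Ramification

set_option autoImplicit false

namespace Fermat.Agent.Lib.Helper9

open Polynomial

local notation "Kbar" => AlgebraicClosure ℚ
local notation "Obar" => integralClosure ℤ (AlgebraicClosure ℚ)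

/-- `Obar` is integrally closed in `Kbar`. -/
theorem obar_closed (x : Kbar) (hx : IsIntegral Obar x) : ∃ b : Obar, algebraMap Obar Kbar b = x := by
  have : IsIntegral ℤ x := isIntegral_trans (R := ℤ) (A := Obar) x hx
  exact ⟨⟨x, this⟩, rfl⟩

/-- integers are in every valuation subring -/
theorem int_mem_valuationSubring (A : ValuationSubring Kbar) (n : ℤ) : (n : Kbar) ∈ A :=
  intCast_mem A n

theorem obar_mem_valuationSubring (A : ValuationSubring Kbar) (s : Obar) : (s : Kbar) ∈ A := by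
  have h1 : IsIntegral ℤ (s : Kbar) := s.2
  have h2 : IsIntegral A (s : Kbar) := h1.tower_top
  obtain ⟨y, hy⟩ := IsIntegrallyClosed.algebraMap_eq_of_integral h2
  rw [← hy]
  exact y.2

/-- an integer prime to `l` is a unit in a valuation ring where `l` is a nonunit -/
theorem int_not_mem_nonunits (A : ValuationSubring Kbar) (l : ℕ) (hl : l.Prime)
    (hlA : (l : Kbar) ∈ A.nonunits) (n : ℤ) (hn : ¬ (l : ℤ) ∣ n) : (n : Kbar) ∉ A.nonunits := by
  intro hnA
  have hcop : IsCoprime (l : ℤ) n := by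
    rw [Int.isCoprime_iff_gcd_eq_one]
    have := (Nat.Prime.coprime_iff_not_dvd hl).mpr (fun h => hn (Int.natCast_dvd.mpr h))
    simpa [Int.gcd, Nat.Coprime] using this
  obtain ⟨u, v, huv⟩ := hcop
  have h1 : (1 : Kbar) = (u : Kbar) * (l : Kbar) + (v : Kbar) * (n : Kbar) := by
    have := congrArg (fun z : ℤ => (z : Kbar)) huv
    simp only [Int.cast_add, Int.cast_mul, Int.cast_natCast, Int.cast_one] at this
    exact this.symm
  have h2 : (1 : Kbar) ∈ A.nonunits := by
    rw [h1]
    rw [ValuationSubring.mem_nonunits_iff] at hlA hnA ⊢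
    have hu : A.valuation (u : Kbar) ≤ 1 := (A.valuation_le_one_iff _).mpr (intCast_mem A u)
    have hv : A.valuation (v : Kbar) ≤ 1 := (A.valuation_le_one_iff _).mpr (intCast_mem A v)
    refine lt_of_le_of_lt (A.valuation.map_add _ _) (max_lt ?_ ?_)
    · rw [map_mul]
      calc A.valuation (u : Kbar) * A.valuation (l : Kbar) ≤ 1 * A.valuation (l : Kbar) := by gcongr
        _ = A.valuation (l : Kbar) := one_mul _
        _ < 1 := hlA
    · rw [map_mul]
      calc A.valuation (v : Kbar) * A.valuation (n : Kbar) ≤ 1 * A.valuation (n : Kbar) := by gcongr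
        _ = A.valuation (n : Kbar) := one_mul _
        _ < 1 := hnA
  rw [ValuationSubring.mem_nonunits_iff, map_one] at h2
  exact lt_irrefl _ h2

/-- Every element of a valuation ring of `Kbar` over `l` is a fraction of algebraic integers
with denominator a unit of the valuation ring. -/
theorem frac_rep (A : ValuationSubring Kbar) (l : ℕ) (hl : l.Prime)
    (hlA : (l : Kbar) ∈ A.nonunits) (x : Kbar) (hx : x ∈ A) :
    ∃ a s : Obar, (s : Kbar) ∉ A.nonunits ∧ (s : Kbar) * x = (a : Kbar) := by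
  have halg : IsAlgebraic ℤ x := by
    have : IsAlgebraic ℚ x := (AlgebraicClosure.isAlgebraic ℚ).isAlgebraic x
    exact (IsFractionRing.isAlgebraic_iff ℤ ℚ Kbar).mpr this
  obtain ⟨p, hp0, hpx⟩ := halg
  set q := p.primPart with hq
  have hqprim : q.IsPrimitive := p.isPrimitive_primPart
  have hqx : aeval x q = 0 := by
    have h1 : p = C p.content * q := p.eq_C_content_mul_primPart
    rw [h1, map_mul, aeval_C] at hpx
    have h2 : (algebraMap ℤ Kbar) p.content ≠ 0 := by
      rw [Ne, eq_intCast, Int.cast_eq_zero]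
      exact content_eq_zero_iff.not.mpr hp0
    exact (mul_eq_zero.mp hpx).resolve_left h2
  have hcoeff : ∃ i, ¬ (l : ℤ) ∣ q.coeff i := by
    by_contra hcon
    push Not at hcon
    have h1 : C (l : ℤ) ∣ q := (C_dvd_iff_dvd_coeff _ _).mpr hcon
    have h2 := hqprim _ h1
    rw [Int.isUnit_iff] at h2
    have := hl.two_le
    omega
  obtain ⟨i, hi⟩ := hcoeff
  have hunit := int_not_mem_nonunits A l hl hlA _ hi
  refine kaplansky_aux (O := Obar) obar_closed A x hx q.natDegree (q.map (algebraMap ℤ Obar))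
    (natDegree_map_le) ?_ ⟨i, ?_⟩
  · rw [aeval_map_algebraMap]; exact hqx
  · rw [coeff_map]
    have : algebraMap Obar Kbar (algebraMap ℤ Obar (q.coeff i)) = ((q.coeff i : ℤ) : Kbar) := by
      rw [← IsScalarTower.algebraMap_apply, eq_intCast]
    rw [this]
    exact hunit

/-- A valuation ring of `Kbar` over `l` is determined by its centre on `Obar`. -/
theorem valuationSubring_le_of_centre (A A' : ValuationSubring Kbar) (l : ℕ) (hl : l.Prime)
    (hlA : (l : Kbar) ∈ A.nonunits)
    (h : ∀ s : Obar, (s : Kbar) ∈ A'.nonunits → (s : Kbar) ∈ A.nonunits) : A ≤ A' := by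
  intro x hx
  obtain ⟨a, s, hs, hsx⟩ := frac_rep A l hl hlA x hx
  have hs' : (s : Kbar) ∉ A'.nonunits := fun hcon => hs (h s hcon)
  have hsA' : (s : Kbar) ∈ A' := obar_mem_valuationSubring A' s
  have haA' : (a : Kbar) ∈ A' := obar_mem_valuationSubring A' a
  have hs0 : (s : Kbar) ≠ 0 := by
    intro h0
    apply hs'
    rw [h0]
    exact A'.nonunits.zero_mem
  -- s is a unit in A'
  have hsv : A'.valuation (s : Kbar) = 1 := by
    have h1 : A'.valuation (s : Kbar) ≤ 1 := (A'.valuation_le_one_iff _).mpr hsA'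
    have h2 : ¬ A'.valuation (s : Kbar) < 1 := fun hlt => hs' (A'.mem_nonunits_iff.mpr hlt)
    exact le_antisymm h1 (not_lt.mp h2)
  have hxeq : x = (s : Kbar)⁻¹ * (a : Kbar) := by
    rw [← hsx, ← mul_assoc, inv_mul_cancel₀ hs0, one_mul]
  rw [← A'.valuation_le_one_iff, hxeq, map_mul, map_inv₀, hsv, inv_one, one_mul]
  exact (A'.valuation_le_one_iff _).mpr haA'

open scoped Pointwise

theorem mem_nonunits_smul_iff (σ : Kbar ≃ₐ[ℚ] Kbar) (A : ValuationSubring Kbar) (y : Kbar) :
    y ∈ (σ • A).nonunits ↔ σ⁻¹ y ∈ A.nonunits := by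
  rw [ValuationSubring.mem_nonunits_iff_or, ValuationSubring.mem_nonunits_iff_or,
    ValuationSubring.mem_pointwise_smul_iff_inv_smul_mem, AlgEquiv.smul_def, map_inv₀]
  simp

/-- The hypothesis produced by the Galois-theoretic part: a maximal ideal `Q` of `Obar` over `l`
and an automorphism `σ` acting as the `l`-power Frobenius modulo `Q`. -/
def IsFrobPair (l : ℕ) (Q : Ideal Obar) (σ : Kbar ≃ₐ[ℚ] Kbar) : Prop :=
  Q.IsMaximal ∧ (l : Obar) ∈ Q ∧
    ∀ x : Obar, ∃ y : Obar, y ∈ Q ∧ σ (x : Kbar) = (x : Kbar) ^ l + (y : Kbar)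

theorem exists_isFrobeniusAt_of_isFrobPair (l : ℕ) (hl : l.Prime) (Q : Ideal Obar)
    (σ : Kbar ≃ₐ[ℚ] Kbar) (h : IsFrobPair l Q σ) :
    ∃ A : ValuationSubring Kbar, A.LiesOverPrime l ∧ A.IsFrobeniusAt σ l := by
  obtain ⟨hQmax, hlQ, hfrob⟩ := h
  have hQprime : Q.IsPrime := hQmax.isPrime
  -- a valuation ring centred at Q
  obtain ⟨A, -, hQA'⟩ := Ideal.image_subset_nonunits_valuationSubring
    (A := (integralClosure ℤ (AlgebraicClosure ℚ)).toSubring) (K := Kbar) Q hQmax.ne_top
  have hQA1 : ∀ s : Obar, s ∈ Q → (s : Kbar) ∈ A.nonunits := fun s hs => hQA' ⟨s, hs, rfl⟩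
  have hQA2 : ∀ s : Obar, (s : Kbar) ∈ A.nonunits → s ∈ Q := by
    intro s hs
    by_contra hsQ
    obtain ⟨t, q, hq, htq⟩ := hQmax.exists_inv hsQ
    have h1 : (1 : Kbar) = (t : Kbar) * (s : Kbar) + (q : Kbar) := by
      have := congrArg (fun z : Obar => (z : Kbar)) htq
      simpa using this.symm
    have h2 : (1 : Kbar) ∈ A.nonunits := by
      rw [h1]
      have hq' := hQA1 q hq
      rw [ValuationSubring.mem_nonunits_iff] at hs hq' ⊢
      have ht : A.valuation (t : Kbar) ≤ 1 :=
        (A.valuation_le_one_iff _).mpr (obar_mem_valuationSubring A t)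
      refine lt_of_le_of_lt (A.valuation.map_add _ _) (max_lt ?_ hq')
      rw [map_mul]
      calc A.valuation (t : Kbar) * A.valuation (s : Kbar) ≤ 1 * A.valuation (s : Kbar) := by gcongr
        _ = A.valuation (s : Kbar) := one_mul _
        _ < 1 := hs
    rw [ValuationSubring.mem_nonunits_iff, map_one] at h2
    exact lt_irrefl _ h2
  have hlA : (l : Kbar) ∈ A.nonunits := by
    have := hQA1 _ hlQ
    simpa using this
  -- σ preserves the centre
  have hσint : ∀ t : Obar, IsIntegral ℤ (σ (t : Kbar)) := fun t => map_isIntegral_int σ t.2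
  have hσinvint : ∀ t : Obar, IsIntegral ℤ (σ⁻¹ (t : Kbar)) := fun t => map_isIntegral_int σ⁻¹ t.2
  have hσQ : ∀ t : Obar, σ (t : Kbar) ∈ A.nonunits ↔ (t : Kbar) ∈ A.nonunits := by
    intro t
    obtain ⟨y, hy, hty⟩ := hfrob t
    have hyA := hQA1 y hy
    have hpow : (t : Kbar) ^ l ∈ A.nonunits ↔ (t : Kbar) ∈ A.nonunits := by
      constructor
      · intro h1
        have h2 : t ^ l ∈ Q := hQA2 (t ^ l) (by simpa using h1)
        exact hQA1 t (hQprime.mem_of_pow_mem l h2)
      · intro h1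
        have h2 : t ^ l ∈ Q := Ideal.pow_mem_of_mem Q (hQA2 t h1) l hl.pos
        simpa using hQA1 _ h2
    rw [hty, ← hpow]
    constructor
    · intro h1
      have := A.nonunits.sub_mem h1 hyA
      simpa using this
    · intro h1
      exact A.nonunits.add_mem h1 hyA
  have hcentre : ∀ s : Obar, (s : Kbar) ∈ (σ • A).nonunits ↔ (s : Kbar) ∈ A.nonunits := by
    intro s
    rw [mem_nonunits_smul_iff]
    have := hσQ ⟨σ⁻¹ (s : Kbar), hσinvint s⟩
    simp only [AlgEquiv.aut_inv, AlgEquiv.apply_symm_apply] at this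
    exact this.symm
  have hlA' : (l : Kbar) ∈ (σ • A).nonunits := by
    have := (hcentre (l : Obar)).mpr (by simpa using hlA)
    simpa using this
  have hstab : σ • A = A := by
    apply le_antisymm
    · exact valuationSubring_le_of_centre (σ • A) A l hl hlA' (fun s hs => (hcentre s).mpr hs)
    · exact valuationSubring_le_of_centre A (σ • A) l hl hlA (fun s hs => (hcentre s).mp hs)
  have hσmem : σ ∈ A.decompositionSubgroup ℚ := MulAction.mem_stabilizer_iff.mpr hstab
  -- Frobenius congruence on A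
  have hfrobA : ∀ x : Kbar, x ∈ A → σ x - x ^ l ∈ A.nonunits := by
    intro x hx
    obtain ⟨a, s, hs, hsx⟩ := frac_rep A l hl hlA x hx
    obtain ⟨y₁, hy₁, hs₁⟩ := hfrob s
    obtain ⟨y₂, hy₂, ha₂⟩ := hfrob a
    have hσs : σ (s : Kbar) ∉ A.nonunits := fun hcon => hs ((hσQ s).mp hcon)
    have hsA : (s : Kbar) ∈ A := obar_mem_valuationSubring A s
    have haA : (a : Kbar) ∈ A := obar_mem_valuationSubring A a
    have hσsA : σ (s : Kbar) ∈ A := obar_mem_valuationSubring A ⟨_, hσint s⟩
    have hsv : A.valuation (s : Kbar) = 1 := by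
      have h1 : A.valuation (s : Kbar) ≤ 1 := (A.valuation_le_one_iff _).mpr hsA
      have h2 : ¬ A.valuation (s : Kbar) < 1 := fun hlt => hs (A.mem_nonunits_iff.mpr hlt)
      exact le_antisymm h1 (not_lt.mp h2)
    have hσsv : A.valuation (σ (s : Kbar)) = 1 := by
      have h1 : A.valuation (σ (s : Kbar)) ≤ 1 := (A.valuation_le_one_iff _).mpr hσsA
      have h2 : ¬ A.valuation (σ (s : Kbar)) < 1 := fun hlt => hσs (A.mem_nonunits_iff.mpr hlt)
      exact le_antisymm h1 (not_lt.mp h2)
    -- key identity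
    have hkey : (σ x - x ^ l) * (σ (s : Kbar) * (s : Kbar) ^ l)
        = (y₂ : Kbar) * (s : Kbar) ^ l - (a : Kbar) ^ l * (y₁ : Kbar) := by
      have h1 : σ (s : Kbar) * σ x = σ (a : Kbar) := by rw [← map_mul, hsx]
      have h2 : (s : Kbar) ^ l * x ^ l = (a : Kbar) ^ l := by rw [← mul_pow, hsx]
      calc (σ x - x ^ l) * (σ (s : Kbar) * (s : Kbar) ^ l)
          = (σ (s : Kbar) * σ x) * (s : Kbar) ^ l - ((s : Kbar) ^ l * x ^ l) * σ (s : Kbar) := by ring
        _ = σ (a : Kbar) * (s : Kbar) ^ l - (a : Kbar) ^ l * σ (s : Kbar) := by rw [h1, h2]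
        _ = ((a : Kbar) ^ l + y₂) * (s : Kbar) ^ l - (a : Kbar) ^ l * ((s : Kbar) ^ l + y₁) := by
              rw [ha₂, hs₁]
        _ = (y₂ : Kbar) * (s : Kbar) ^ l - (a : Kbar) ^ l * (y₁ : Kbar) := by ring
    have hnum : (y₂ : Kbar) * (s : Kbar) ^ l - (a : Kbar) ^ l * (y₁ : Kbar) ∈ A.nonunits := by
      have hy₁A := hQA1 y₁ hy₁
      have hy₂A := hQA1 y₂ hy₂
      rw [ValuationSubring.mem_nonunits_iff] at hy₁A hy₂A ⊢
      have hav : A.valuation ((a : Kbar) ^ l) ≤ 1 := (A.valuation_le_one_iff _).mpr (pow_mem haA l)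
      refine lt_of_le_of_lt (A.valuation.map_sub _ _) (max_lt ?_ ?_)
      · rw [map_mul, map_pow, hsv, one_pow, mul_one]; exact hy₂A
      · rw [map_mul]
        calc A.valuation ((a : Kbar) ^ l) * A.valuation (y₁ : Kbar)
            ≤ 1 * A.valuation (y₁ : Kbar) := by gcongr
          _ = A.valuation (y₁ : Kbar) := one_mul _
          _ < 1 := hy₁A
    rw [← hkey, ValuationSubring.mem_nonunits_iff, map_mul, map_mul, map_pow, hσsv, hsv, one_pow,
      mul_one, mul_one] at hnum
    exact A.mem_nonunits_iff.mpr hnum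
  refine ⟨A, hlA, hσmem, ?_⟩
  intro xbar
  obtain ⟨x, rfl⟩ := IsLocalRing.residue_surjective xbar
  rw [← IsLocalRing.ResidueField.residue_smul, ← map_pow, ← sub_eq_zero, ← map_sub,
    IsLocalRing.residue_eq_zero_iff, ← ValuationSubring.coe_mem_nonunits_iff]
  exact hfrobA x x.2

end Fermat.Agent.Lib.Helper9
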