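-- Existence of a Frobenius pair (Q, σ) for the ring of all algebraic integers.
import Mathlib
import Fermat.Agent.Lib.Helper9.ValFrob

set_option autoImplicit false

namespace Fermat.Agent.Lib.Helper9

open Polynomial

local notation "Kbar" => AlgebraicClosure ℚ
local notation "Obar" => integralClosure ℤ (AlgebraicClosure ℚ)
local notation "GQ" => (AlgebraicClosure ℚ ≃ₐ[ℚ] AlgebraicClosure ℚ)

/-- The action of the absolute Galois group on the ring of all algebraic integers. -/
noncomputable instance galActionObar : MulSemiringAction GQ Obar where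
  smul σ x := ⟨σ (x : Kbar), map_isIntegral_int σ x.2⟩
  one_smul x := Subtype.ext rfl
  mul_smul σ τ x := Subtype.ext rfl
  smul_zero σ := Subtype.ext (map_zero σ)
  smul_add σ x y := Subtype.ext (map_add σ _ _)
  smul_one σ := Subtype.ext (map_one σ)
  smul_mul σ x y := Subtype.ext (map_mul σ _ _)

theorem coe_smul_obar (σ : GQ) (x : Obar) : ((σ • x : Obar) : Kbar) = σ (x : Kbar) := rfl

/-- Discrete topology on the ring of algebraic integers. -/
instance topObar : TopologicalSpace Obar := ⊥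

instance discreteObar : DiscreteTopology Obar := ⟨rfl⟩

instance isAlgebraicKbar : Algebra.IsAlgebraic ℚ Kbar := AlgebraicClosure.isAlgebraic ℚ

instance isIntegralKbar : Algebra.IsIntegral ℚ Kbar := Algebra.IsAlgebraic.isIntegral

instance isAlgClosureKbar : IsAlgClosure ℚ Kbar := ⟨inferInstance, inferInstance⟩

instance isGaloisKbar : IsGalois ℚ Kbar := IsAlgClosure.isGalois ℚ Kbar

instance continuousSMulObar : ContinuousSMul GQ Obar := by
  refine ⟨?_⟩
  rw [continuous_iff_continuousAt]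
  rintro ⟨σ, x⟩
  -- the set of (τ, y) with y = x and τ ∈ σ * Stab(x) is an open neighbourhood mapped to σ • x
  have hopen : IsOpen (MulAction.stabilizer GQ (x : Kbar) : Set GQ) :=
    stabilizer_isOpen_of_isIntegral (K := ℚ) (L := Kbar) (x : Kbar)
  have hopen' : IsOpen ((fun τ : GQ => σ⁻¹ * τ) ⁻¹' (MulAction.stabilizer GQ (x : Kbar) : Set GQ)) :=
    hopen.preimage (continuous_const.mul continuous_id)
  have hU : IsOpen (((fun τ : GQ => σ⁻¹ * τ) ⁻¹' (MulAction.stabilizer GQ (x : Kbar) : Set GQ)) ×ˢ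
      ({x} : Set Obar)) := hopen'.prod (isOpen_discrete _)
  refine ContinuousAt.congr (f := fun _ => σ • x) continuousAt_const ?_
  refine Filter.eventually_of_mem (hU.mem_nhds ?_) ?_
  · simp
  · rintro ⟨τ, y⟩ ⟨hτ, hy⟩
    simp only [Set.mem_singleton_iff] at hy
    subst hy
    simp only [Set.mem_preimage, SetLike.mem_coe, MulAction.mem_stabilizer_iff] at hτ
    apply Subtype.ext
    show σ (y : Kbar) = τ (y : Kbar)
    have : (σ⁻¹ * τ) (y : Kbar) = (y : Kbar) := hτ
    have h2 := congrArg σ this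
    simpa using h2.symm

/-- A rational number which is an algebraic integer is an integer. -/
theorem int_of_isIntegral_rat (q : ℚ) (hq : IsIntegral ℤ (algebraMap ℚ Kbar q)) :
    ∃ n : ℤ, (n : ℚ) = q := by
  have h1 : IsIntegral ℤ q := (isIntegral_algebraMap_iff (algebraMap ℚ Kbar).injective).mp hq
  obtain ⟨n, hn⟩ := IsIntegrallyClosed.algebraMap_eq_of_integral h1
  exact ⟨n, by simpa using hn⟩

instance isInvariantObar : Algebra.IsInvariant ℤ Obar GQ := by
  refine ⟨fun b hb => ?_⟩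
  have hfix : ∀ f : GQ, f (b : Kbar) = (b : Kbar) := fun f => congrArg Subtype.val (hb f)
  have hbot := (InfiniteGalois.mem_range_algebraMap_iff_fixed (k := ℚ) (K := Kbar) (b : Kbar)).mpr hfix
  obtain ⟨q, hq⟩ := hbot
  obtain ⟨n, hn⟩ := int_of_isIntegral_rat q (by rw [hq]; exact b.2)
  refine ⟨n, Subtype.ext ?_⟩
  show ((algebraMap ℤ Obar n : Obar) : Kbar) = (b : Kbar)
  rw [← hq, ← hn]
  simp

/-- A prime number is not a unit in the ring of algebraic integers. -/
theorem not_isUnit_natCast_obar {l : ℕ} (hl : l.Prime) : ¬ IsUnit (l : Obar) := by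
  intro h
  obtain ⟨u, hu⟩ := h.exists_right_inv
  have h1 : (l : Kbar) * (u : Kbar) = 1 := by
    have := congrArg (fun z : Obar => (z : Kbar)) hu
    simpa using this
  have hl0 : (l : Kbar) ≠ 0 := by exact_mod_cast hl.ne_zero
  have h2 : (u : Kbar) = algebraMap ℚ Kbar ((l : ℚ)⁻¹) := by
    rw [map_inv₀, map_natCast]
    field_simp
    linear_combination h1
  obtain ⟨n, hn⟩ := int_of_isIntegral_rat ((l : ℚ)⁻¹) (by rw [← h2]; exact u.2)
  have hlq : (l : ℚ) ≠ 0 := by exact_mod_cast hl.ne_zero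
  have h3 : (l : ℚ) * (n : ℚ) = 1 := by rw [hn]; field_simp
  have h4 : (l : ℤ) * n = 1 := by exact_mod_cast h3
  have h5 : (l : ℤ) ∣ 1 := ⟨n, h4.symm⟩
  have h6 := Int.le_of_dvd one_pos h5
  have := hl.two_le
  omega

/-- `Obar` is closed under taking `l`-th roots. -/
theorem exists_root_obar (l : ℕ) (hl : 0 < l) (x : Obar) : ∃ y : Obar, y ^ l = x := by
  obtain ⟨z, hz⟩ := IsAlgClosed.exists_pow_nat_eq (x : Kbar) hl
  have hzint : IsIntegral ℤ z := by
    have : IsIntegral ℤ (z ^ l) := by rw [hz]; exact x.2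
    exact IsIntegral.of_pow hl this
  exact ⟨⟨z, hzint⟩, Subtype.ext hz⟩

theorem exists_isFrobPair (l : ℕ) (hl : l.Prime) :
    ∃ (Q : Ideal Obar) (σ : GQ), IsFrobPair l Q σ := by
  -- a maximal ideal over l
  have hne : Ideal.span {(l : Obar)} ≠ ⊤ := fun htop =>
    not_isUnit_natCast_obar hl (Ideal.span_singleton_eq_top.mp htop)
  obtain ⟨Q, hQmax, hQle⟩ := Ideal.exists_le_maximal _ hne
  have hlQ : (l : Obar) ∈ Q := hQle (Ideal.subset_span rfl)
  haveI : Q.IsMaximal := hQmax
  haveI : Q.IsPrime := hQmax.isPrime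
  set P : Ideal ℤ := Q.under ℤ with hP
  haveI : Q.LiesOver P := Ideal.over_under Q
  -- characteristic l on the quotient
  have hl0 : ((l : ℕ) : Obar ⧸ Q) = 0 := by
    have : (Ideal.Quotient.mk Q (l : Obar)) = 0 := Ideal.Quotient.eq_zero_iff_mem.mpr hlQ
    simpa using this
  haveI : Fact l.Prime := ⟨hl⟩
  haveI : CharP (Obar ⧸ Q) l := by
    have hnt : Nontrivial (Obar ⧸ Q) := Ideal.Quotient.nontrivial_iff.mpr hQmax.ne_top
    exact (CharP.charP_iff_prime_eq_zero hl).mpr hl0
  -- Frobenius is bijective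
  have hbij : Function.Bijective (frobenius (Obar ⧸ Q) l) := by
    letI : Field (Obar ⧸ Q) := Ideal.Quotient.field Q
    refine ⟨(frobenius (Obar ⧸ Q) l).injective, ?_⟩
    intro xbar
    obtain ⟨x, rfl⟩ := Ideal.Quotient.mk_surjective xbar
    obtain ⟨y, hy⟩ := exists_root_obar l hl.pos x
    refine ⟨Ideal.Quotient.mk Q y, ?_⟩
    rw [frobenius_def, ← map_pow, hy]
  -- as an algebra automorphism over ℤ ⧸ P
  let φ : (Obar ⧸ Q) ≃ₐ[ℤ ⧸ P] (Obar ⧸ Q) :=
    AlgEquiv.ofBijective
      { toRingHom := frobenius (Obar ⧸ Q) l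
        commutes' := by
          intro r
          obtain ⟨n, rfl⟩ := Ideal.Quotient.mk_surjective r
          have h1 : algebraMap (ℤ ⧸ P) (Obar ⧸ Q) (Ideal.Quotient.mk P n) = ((n : ℤ) : Obar ⧸ Q) := by
            rw [Ideal.Quotient.algebraMap_mk_of_liesOver]
            simp
          simp only [RingHom.toMonoidHom_eq_coe, OneHom.toFun_eq_coe, MonoidHom.toOneHom_coe,
            MonoidHom.coe_coe]
          rw [h1, map_intCast] } hbij
  obtain ⟨⟨σ, hσ⟩, hσφ⟩ := Ideal.Quotient.stabilizerHom_surjective_of_profinite (G := GQ) P Q φ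
  refine ⟨Q, σ, hQmax, hlQ, ?_⟩
  intro x
  have h1 := congrArg (fun f => f (Ideal.Quotient.mk Q x)) hσφ
  simp only [Ideal.Quotient.stabilizerHom_apply] at h1
  have h2 : φ (Ideal.Quotient.mk Q x) = Ideal.Quotient.mk Q (x ^ l) := by
    show frobenius (Obar ⧸ Q) l (Ideal.Quotient.mk Q x) = _
    rw [frobenius_def, map_pow]
  rw [h2] at h1
  have h3 : (σ • x) - x ^ l ∈ Q := by
    rw [← Ideal.Quotient.eq_zero_iff_mem, map_sub, sub_eq_zero]
    exact h1
  refine ⟨(σ • x) - x ^ l, h3, ?_⟩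
  rw [← coe_smul_obar]
  push_cast
  ring

end Fermat.Agent.Lib.Helper9
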