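-- Existence of Frobenius elements in Gal(Qbar/Q) at a valuation subring over each prime.
import Mathlib
import Fermat.Prelude.Def_EllipticCurve_FrobeniusTrace
import Fermat.Prelude.Def_FLTPrelim_Ramification
import Fermat.Agent.Lib.Helper9.ValFrob
import Fermat.Agent.Lib.Helper9.FrobPair

set_option autoImplicit false

namespace Fermat.Agent.Lib.Helper9

theorem exists_isFrobeniusAt (l : ℕ) (hl : l.Prime) :
    ∃ (A : ValuationSubring (AlgebraicClosure ℚ))
      (σ : AlgebraicClosure ℚ ≃ₐ[ℚ] AlgebraicClosure ℚ),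
      A.LiesOverPrime l ∧ A.IsFrobeniusAt σ l := by
  obtain ⟨Q, σ, h⟩ := exists_isFrobPair l hl
  obtain ⟨A, hA, hσ⟩ := exists_isFrobeniusAt_of_isFrobPair l hl Q σ h
  exact ⟨A, σ, hA, hσ⟩

end Fermat.Agent.Lib.Helper9
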