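-- S54 bookkeeping: R ->> T from the universal property, given existence of Frobenius elements.
import Fermat.Statements.S54
import Mathlib

set_option autoImplicit false
open GaloisRep GaloisRep.DeformationRingData

namespace Fermat.Agent.Lib.Helper9

open Polynomial

/-- Existence of Frobenius elements (hypothesis form). -/
def FrobExists : Prop :=
  ∀ ℓ : ℕ, ℓ.Prime → ∃ (A : ValuationSubring (AlgebraicClosure ℚ))
    (σ : AlgebraicClosure ℚ ≃ₐ[ℚ] AlgebraicClosure ℚ), A.LiesOverPrime ℓ ∧ A.IsFrobeniusAt σ ℓ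

theorem trace_eq_of_charpoly_eq {R : Type*} [CommRing R] [Nontrivial R] {V : Type*}
    [AddCommGroup V] [Module R V] [Module.Free R V] [Module.Finite R V] (f : Module.End R V)
    (a b : R) (h : LinearMap.charpoly f = X ^ 2 - C a * X + C b) :
    LinearMap.trace R V f = a := by
  classical
  let bs := Module.Free.chooseBasis R V
  rw [LinearMap.trace_eq_matrix_trace R bs, Matrix.trace_eq_neg_charpoly_nextCoeff,
    LinearMap.charpoly_toMatrix, h]
  have hdeg : (X ^ 2 - C a * X + C b : R[X]).natDegree = 2 := by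
    compute_degree!
  rw [nextCoeff_of_natDegree_pos (by rw [hdeg]; norm_num), hdeg]
  simp [coeff_C]

theorem s54_main (hF : FrobExists) {𝒪 : Type} [CommRing 𝒪] [IsDomain 𝒪] [IsDiscreteValuationRing 𝒪] [IsAdicComplete (IsLocalRing.maximalIdeal 𝒪) 𝒪] {ρbar : ResidualGaloisRep (IsLocalRing.ResidueField 𝒪)} {𝒟 : ∀ ⦃A : Type⦄ [CommRing A] [IsLocalRing A] [Algebra 𝒪 A], GaloisRepAdic A → Prop} (D : GaloisRep.DeformationRingData 𝒪 ρbar 𝒟) {N : ℕ} [NeZero N] {S : Set ℕ} {θ : CuspForm.heckeAlgebra N 2 S →+* IsLocalRing.ResidueField 𝒪} {T : Type} [CommRing T] [IsLocalRing T] [IsNoetherianRing T] [IsAdicComplete (IsLocalRing.maximalIdeal T) T] [Algebra 𝒪 T] [IsLocalHom (algebraMap 𝒪 T)] [Module.Finite 𝒪 T] [Module.Free 𝒪 T] (H : CuspForm.HeckeGaloisRepDatum N S 𝒪 θ T) (hS : ∀ q : ℕ, q.Prime → q ∣ N → q ∈ S) (h𝒟 : 𝒟 H.ρ) (hres : H.ρ.residual.IsEquiv (ρbar.baseChangeAlong (IsLocalRing.ResidueField.map (algebraMap 𝒪 T)))) : ∃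 φ : D.R →ₐ[𝒪] T, Function.Surjective φ ∧ ∃ hφ : IsLocalHom (φ : D.R →+* T), (D.ρ.baseChangeAlong (φ : D.R →+* T) hφ).IsEquiv H.ρ := by
  obtain ⟨φ, ⟨hφ, he⟩, -⟩ := D.universal T H.residue_surjective H.ρ h𝒟 hres
  refine ⟨φ, ?_, hφ, he⟩
  obtain ⟨e⟩ := he
  -- traces of Frobenius are in the range
  have htrace : ∀ σ : AlgebraicClosure ℚ ≃ₐ[ℚ] AlgebraicClosure ℚ,
      LinearMap.trace T H.ρ.V (H.ρ.ρ σ) ∈ φ.range := by
    intro σ
    have hconj : H.ρ.ρ σ = e.toLinearEquiv.conj ((D.ρ.baseChangeAlong (φ : D.R →+* T) hφ).ρ σ) := by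
      apply LinearMap.ext
      intro x
      rw [LinearEquiv.conj_apply_apply, e.map_apply, LinearEquiv.apply_symm_apply]
    rw [hconj, LinearMap.trace_conj']
    let _ : Algebra D.R T := (φ : D.R →+* T).toAlgebra
    have hbc : (D.ρ.baseChangeAlong (φ : D.R →+* T) hφ).ρ σ = (D.ρ.ρ σ).baseChange T := rfl
    rw [hbc]
    have := LinearMap.trace_baseChange (R := D.R) (M := D.ρ.V) (D.ρ.ρ σ) T
    erw [this]
    exact ⟨_, rfl⟩
  have hgen : ∀ (x : Module.End ℂ (CuspForm (CongruenceSubgroup.Gamma0 N) 2))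
      (hx : x ∈ Algebra.adjoin ℤ (CuspForm.heckeGenerators N 2 S)),
      H.π ⟨x, hx⟩ ∈ φ.range := by
    intro x hx
    induction hx using Algebra.adjoin_induction with
    | mem x hx =>
      rcases hx with ⟨ℓ, hℓ, hℓN, hℓS, rfl⟩ | ⟨q, hqN, hq, hqS, rfl⟩
      · obtain ⟨A, σ, hA, hσ⟩ := hF ℓ hℓ
        have hcp := H.charpoly_frob ℓ hℓ hℓN hℓS A hA σ hσ
        have := trace_eq_of_charpoly_eq _ _ _ hcp
        have h2 := htrace σ
        rw [this] at h2
        exact h2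
      · exact absurd (hS q hq hqN) hqS
    | algebraMap r =>
      have h1 : (⟨algebraMap ℤ _ r, Subalgebra.algebraMap_mem _ r⟩ :
          CuspForm.heckeAlgebra N 2 S) = algebraMap ℤ (CuspForm.heckeAlgebra N 2 S) r := rfl
      rw [h1, eq_intCast, map_intCast]
      exact ⟨(r : D.R), map_intCast φ r⟩
    | add x y hx hy hpx hpy =>
      have h1 : (⟨x + y, add_mem hx hy⟩ : CuspForm.heckeAlgebra N 2 S) = ⟨x, hx⟩ + ⟨y, hy⟩ := rfl
      rw [h1, map_add]
      exact add_mem hpx hpy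
    | mul x y hx hy hpx hpy =>
      have h1 : (⟨x * y, mul_mem hx hy⟩ : CuspForm.heckeAlgebra N 2 S) = ⟨x, hx⟩ * ⟨y, hy⟩ := rfl
      rw [h1, map_mul]
      exact mul_mem hpx hpy
  have hrange : Set.range H.π ⊆ (φ.range : Set T) := by
    rintro _ ⟨⟨x, hx⟩, rfl⟩
    exact hgen x hx
  have hle : Algebra.adjoin 𝒪 (Set.range H.π) ≤ φ.range := Algebra.adjoin_le hrange
  rw [H.adjoin_range_π] at hle
  rw [← AlgHom.range_eq_top]
  exact top_le_iff.mp hle

end Fermat.Agent.Lib.Helper9
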